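import Fermat.Agent.S16.DUIdeal.Statements
import Fermat.Agent.S16.DUDuality.Main
import Fermat.Agent.S16.UB.Main
import Fermat.Agent.S16.TH.LBin

/-!
# S16: final assembly (owner: helper20, chief).

`main` is the frozen statement S16 (`Nat.card (T / I) = n(p)`), assembled from
* DU-ideal (helper13, `DUIdeal/`): `DU.exists_index`, `DU.exists_psi`, `DU.card_quotient`,
  `DU.numerator_dvd_of_mem`, the `σ'` identities, and the small primes;
* DU-duality (helper15, `DUDuality/Main.lean`): `DU.exists_form_of_ringHom`;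
* (UBin) (helper10, `UB/Main.lean`): `UB.ubin`;
* (LBin) (helper24, `TH/LBin.lean`): `TH.lbin`.

For `p ≥ 5`: let `c ℤ = {m | m • 1 ∈ I}`.  (LBin) gives `n ∣ c`; the duality gives a cusp form with
coefficients `≡ σ'` modulo `c`, and (UBin) with `d = c` gives `c ∣ n`.  So `c = n`, and
`Nat.card (T / I) = c`.  For `p = 2, 3` the space of cusp forms is zero.
-/

set_option autoImplicit false

open ModularCurve CuspForm

namespace Fermat.Agent.S16

/-- Bridge between the two divisor sums. -/
theorem sigmaPZ_eq_sigmaNat (p : ℕ) [Fact p.Prime] (k : ℕ) :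
    DU.sigmaPZ p k = ((sigmaNat p k : ℕ) : ℤ) := by
  rw [sigmaNat_cast_int]
  rfl

theorem main_large (p : ℕ) [Fact p.Prime] (h5 : 5 ≤ p) :
    Nat.card (DU.TT p ⧸ DU.II p) = eisensteinNumerator p := by
  have hpp : p.Prime := Fact.out
  obtain ⟨c, hc⟩ := DU.exists_index p
  -- lower bound: `n ∣ c`
  obtain ⟨f₀, r, h₀⟩ := TH.lbin p hpp (by omega)
  have hnc : (eisensteinNumerator p : ℤ) ∣ (c : ℤ) :=
    DU.numerator_dvd_of_mem p (DU.sigmaPZ p) (DU.sigmaPZ_one p) (DU.sigmaPZ_mul_self p)
      (DU.sigmaPZ_mul_prime p) f₀ r h₀ (c : ℤ) ((hc (c : ℤ)).mpr dvd_rfl)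
  -- upper bound: `c ∣ n`
  obtain ⟨ψ, -, hψ⟩ := DU.exists_psi p c hc
  obtain ⟨f, a, ha, hcong⟩ := DU.exists_form_of_ringHom p (ZMod.intCast_surjective (n := c)) ψ
    (fun ℓ => by
      rw [hψ (MvPolynomial.X ℓ)]
      unfold DU.ev
      rw [MvPolynomial.aeval_X])
  have hcn : c ∣ eisensteinNumerator p :=
    UB.ubin hpp h5 f a ha (fun k hk => by
      rw [← sigmaPZ_eq_sigmaNat]
      have h := hcong k hk
      rw [ZMod.intCast_eq_intCast_iff_dvd_sub] at h
      exact (dvd_sub_comm).mp h)
  have hceq : c = eisensteinNumerator p :=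
    Nat.dvd_antisymm hcn (Int.natCast_dvd_natCast.mp hnc)
  rw [← hceq]
  exact DU.card_quotient p c hc

theorem main_small (p : ℕ) [Fact p.Prime] (h : p = 2 ∨ p = 3) :
    Nat.card (DU.TT p ⧸ DU.II p) = eisensteinNumerator p := by
  have hs : p = 2 ∨ p = 3 ∨ p = 5 ∨ p = 7 ∨ p = 13 := by
    rcases h with h | h
    · exact Or.inl h
    · exact Or.inr (Or.inl h)
  rw [DU.eisensteinNumerator_of_small p hs]
  exact DU.card_quotient_of_finrank_eq_zero p (DU.finrank_eq_zero_of_small p hs)

theorem main (p : ℕ) [Fact p.Prime] :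
    Nat.card (↥(heckeLatticeAlgebra p ∅) ⧸
        Ideal.map ((latticeRestrictHom p ∅).toRingHom.comp (heckeEvalForms p 2))
          (eisensteinIdeal p)) =
      eisensteinNumerator p := by
  have hpp : p.Prime := Fact.out
  by_cases h5 : 5 ≤ p
  · exact main_large p h5
  · have h23 : p = 2 ∨ p = 3 := by
      have h2 := hpp.two_le
      have hlt : p < 5 := not_le.mp h5
      interval_cases p
      · left; rfl
      · right; rfl
      · exact absurd hpp (by decide)
    exact main_small p h23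

end Fermat.Agent.S16
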